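import Mathlib

/-!
# RIBET / ELOC-Frey (helper420): determinant of a triangular endomorphism in dimension two
-/

set_option autoImplicit false

namespace Fermat.Agent.Ribet.H420

/-- If `f t = a • t` and `f x = x + n • t` with `x ∉ ⟨t⟩`, `t ≠ 0`, in dimension two, then
`det f = a`. -/
theorem det_eq_of_triangular {k V : Type*} [Field k] [AddCommGroup V] [Module k V]
    (hdim : Module.finrank k V = 2) (f : V →ₗ[k] V) (t x : V) (ht : t ≠ 0)
    (hx : ∀ a : k, a • t ≠ x) (a n : k) (hft : f t = a • t) (hfx : f x = x + n • t) :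
    LinearMap.det f = a := by
  have hli : LinearIndependent k ![x, t] := by
    rw [linearIndependent_fin2]
    exact ⟨by simpa using ht, fun c => by simpa using hx c⟩
  let b := basisOfLinearIndependentOfCardEqFinrank hli (by simp [hdim])
  have hb : ⇑b = ![x, t] := coe_basisOfLinearIndependentOfCardEqFinrank hli _
  have hb0 : b 0 = x := by rw [hb]; rfl
  have hb1 : b 1 = t := by rw [hb]; rfl
  have hfx' : f (b 0) = b 0 + n • b 1 := by rw [hb0, hb1, hfx]
  have hft' : f (b 1) = a • b 1 := by rw [hb1, hft]
  rw [← LinearMap.det_toMatrix b, Matrix.det_fin_two]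
  simp only [LinearMap.toMatrix_apply, hfx', hft', map_add, map_smul, Module.Basis.repr_self,
    Finsupp.coe_add, Finsupp.coe_smul, Pi.add_apply, Pi.smul_apply, smul_eq_mul]
  simp

end Fermat.Agent.Ribet.H420
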