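import Mathlib
import Fermat.Agent.S14.H366.ValLam

/-!
# RIBET / ELOC-Frey (helper420), abstract part: Lagrange resolvents and valuations

`A` a valuation subring of a field `L` of characteristic `0`, `v` its valuation, `p` a prime,
`ζ ∈ L` a primitive `p`-th root of unity, `ψ a = ζ ^ a` the additive character of `ZMod p`.
For a family `X : ZMod p → L` put `γ j = ∑ i, ψ (i * j) * X i` (Lagrange resolvents).

A value `g` is *tame* (`InTame`) if `g ^ (p - 1)` is an integral power of `v p`
(the value group of `K₀(ζ)` for an unramified `K₀`).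

* `exists_resolvent_inTame` : if the valuations of all "fixed" elements are tame
  (in the sense of the hypotheses `hpow`, `hquot`) and `v (X a - X b)` is tame for some `a ≠ b`,
  then some resolvent `γ j`, `j ≠ 0`, is nonzero with tame valuation.
* `exists_unit_of_family` : the Galois form.  `𝓗` a set of field automorphisms fixing `ζ` and
  permuting the `X i` by translations `i ↦ i + n s`; if all nonzero `𝓗`-fixed elements have tame
  valuation and `v (X a - X b)` is tame for some `a ≠ b`, there is a unit `y` of `A` with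
  `y ^ p` fixed by `𝓗` such that `s y = y → n s = 0` for all `s ∈ 𝓗`.
-/

set_option autoImplicit false
set_option linter.unusedSectionVars false
set_option linter.style.haveILetI false

namespace Fermat.Agent.Ribet.H420

open Finset

variable {L : Type*} [Field L] [CharZero L] (A : ValuationSubring L) (p : ℕ)

/-- `g ^ (p - 1)` is an integral power of `v p`. -/
def InTame (g : A.ValueGroup) : Prop :=
  ∃ k : ℤ, g ^ (p - 1) = A.valuation (p : L) ^ k

variable {A p}

lemma InTame.ne_zero [hp : Fact p.Prime] {g : A.ValueGroup} (h : InTame A p g) : g ≠ 0 := by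
  obtain ⟨k, hk⟩ := h
  intro h0
  have hp1 : p - 1 ≠ 0 := by have := hp.out.two_le; omega
  rw [h0, zero_pow hp1] at hk
  have : A.valuation (p : L) ≠ 0 := by
    rw [Ne, map_eq_zero]; exact_mod_cast hp.out.ne_zero
  exact zpow_ne_zero k this hk.symm

lemma inTame_one : InTame A p (1 : A.ValueGroup) := ⟨0, by simp⟩

lemma InTame.mul {g h : A.ValueGroup} (hg : InTame A p g) (hh : InTame A p h)
    (hp0 : A.valuation (p : L) ≠ 0) : InTame A p (g * h) := by
  obtain ⟨k, hk⟩ := hg
  obtain ⟨l, hl⟩ := hh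
  exact ⟨k + l, by rw [mul_pow, hk, hl, zpow_add₀ hp0]⟩

lemma InTame.inv {g : A.ValueGroup} (hg : InTame A p g) : InTame A p g⁻¹ := by
  obtain ⟨k, hk⟩ := hg
  exact ⟨-k, by rw [inv_pow, hk, zpow_neg]⟩

lemma InTame.zpow {g : A.ValueGroup} (hg : InTame A p g) (n : ℤ) : InTame A p (g ^ n) := by
  obtain ⟨k, hk⟩ := hg
  refine ⟨k * n, ?_⟩
  rw [← zpow_natCast, ← zpow_mul, mul_comm, zpow_mul, zpow_natCast, hk, zpow_mul]

lemma InTame.pow {g : A.ValueGroup} (hg : InTame A p g) (n : ℕ) : InTame A p (g ^ n) := by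
  have := hg.zpow (n : ℤ)
  rwa [zpow_natCast] at this

lemma inTame_val_p : InTame A p (A.valuation (p : L)) :=
  ⟨(p - 1 : ℕ), by rw [zpow_natCast]⟩

/-- Bezout: if `g ^ a` and `g ^ p` are tame and `a` is prime to `p`, then `g` is tame. -/
lemma inTame_of_pow_coprime [hp : Fact p.Prime] {g : A.ValueGroup} (hg0 : g ≠ 0) {a : ℕ}
    (ha : Nat.Coprime a p) (h1 : InTame A p (g ^ a)) (h2 : InTame A p (g ^ p)) :
    InTame A p g := by
  have hp0 : A.valuation (p : L) ≠ 0 := by
    rw [Ne, map_eq_zero]; exact_mod_cast hp.out.ne_zero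
  have hb : (a : ℤ) * Nat.gcdA a p + (p : ℤ) * Nat.gcdB a p = 1 := by
    have := Nat.gcd_eq_gcd_ab a p
    rw [ha] at this
    exact_mod_cast this.symm
  have e : g = (g ^ a) ^ (Nat.gcdA a p) * (g ^ p) ^ (Nat.gcdB a p) := by
    rw [← zpow_natCast g a, ← zpow_natCast g p, ← zpow_mul, ← zpow_mul, ← zpow_add₀ hg0, hb,
      zpow_one]
  rw [e]
  exact (h1.zpow _).mul (h2.zpow _) hp0


/-! ### The character `a ↦ ζ ^ a` -/

section character

variable [hp : Fact p.Prime] {ζ : L} (hζ : IsPrimitiveRoot ζ p)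

/-- the additive character `a ↦ ζ ^ a` of `ZMod p` -/
noncomputable def resChar (hζ : IsPrimitiveRoot ζ p) : AddChar (ZMod p) L :=
  haveI : NeZero p := ⟨hp.out.ne_zero⟩
  AddChar.zmodChar p hζ.pow_eq_one

lemma resChar_apply (a : ZMod p) : resChar hζ a = ζ ^ a.val := by
  haveI : NeZero p := ⟨hp.out.ne_zero⟩
  exact AddChar.zmodChar_apply _ a

lemma resChar_isPrimitive : (resChar hζ).IsPrimitive := by
  haveI : NeZero p := ⟨hp.out.ne_zero⟩
  exact AddChar.zmodChar_primitive_of_primitive_root p hζ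

lemma resChar_eq_one_iff (a : ZMod p) : resChar hζ a = 1 ↔ a = 0 := by
  haveI : NeZero p := ⟨hp.out.ne_zero⟩
  exact (resChar_isPrimitive hζ).zmod_char_eq_one_iff p a

lemma resChar_pow_p (a : ZMod p) : resChar hζ a ^ p = 1 := by
  rw [resChar_apply, ← pow_mul, mul_comm, pow_mul, hζ.pow_eq_one, one_pow]

lemma resChar_ne_zero (a : ZMod p) : resChar hζ a ≠ 0 := by
  intro h
  have := resChar_pow_p hζ a
  rw [h, zero_pow hp.out.ne_zero] at this
  exact zero_ne_one this

lemma val_resChar (a : ZMod p) : A.valuation (resChar hζ a) = 1 := by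
  have h1 : A.valuation (resChar hζ a) ^ p = 1 := by
    rw [← map_pow, resChar_pow_p, map_one]
  exact (pow_eq_one_iff_of_nonneg zero_le hp.out.ne_zero).mp h1

lemma map_resChar (s : L →+* L) (hs : s ζ = ζ) (a : ZMod p) :
    s (resChar hζ a) = resChar hζ a := by
  rw [resChar_apply, map_pow, hs]

/-- `v (ψ a - ψ b) = v (ζ - 1)` for `a ≠ b`. -/
lemma val_resChar_sub {a b : ZMod p} (hab : a ≠ b) :
    A.valuation (resChar hζ a - resChar hζ b) = A.valuation (ζ - 1) := by
  have e : resChar hζ a - resChar hζ b = resChar hζ b * (resChar hζ (a - b) - 1) := by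
    rw [mul_sub, mul_one, ← AddChar.map_add_eq_mul, add_sub_cancel]
  rw [e, map_mul, val_resChar, one_mul, resChar_apply]
  apply Fermat.Agent.S14.H366.val_root_pow_sub_one hp.out hζ
  intro hdvd
  have hlt : (a - b).val < p := ZMod.val_lt _
  have h0 : (a - b).val = 0 := Nat.eq_zero_of_dvd_of_lt hdvd hlt
  haveI : NeZero p := ⟨hp.out.ne_zero⟩
  rw [ZMod.val_eq_zero] at h0
  exact hab (sub_eq_zero.mp h0)

include hζ in
lemma val_zeta_sub_one_ne_zero : A.valuation (ζ - 1) ≠ 0 := by
  rw [Ne, map_eq_zero, sub_eq_zero]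
  exact hζ.ne_one hp.out.one_lt

include hζ in
lemma inTame_val_zeta_sub_one : InTame A p (A.valuation (ζ - 1)) :=
  ⟨1, by rw [Fermat.Agent.S14.H366.val_lam_pow hp.out hζ, zpow_one]⟩

end character

/-! ### Resolvents -/

section resolvent

variable [hp : Fact p.Prime]

/-- the Lagrange resolvent `∑ i, ψ (i * j) * X i` -/
noncomputable def resolvent (ψ : AddChar (ZMod p) L) (X : ZMod p → L) (j : ZMod p) : L :=
  ∑ i : ZMod p, ψ (i * j) * X i

/-- Fourier inversion. -/
lemma sum_resolvent {ψ : AddChar (ZMod p) L} (hψ : ψ.IsPrimitive) (X : ZMod p → L)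
    (a : ZMod p) :
    ∑ j : ZMod p, ψ (-(a * j)) * resolvent ψ X j = (p : L) * X a := by
  classical
  simp only [resolvent, Finset.mul_sum]
  rw [Finset.sum_comm]
  have h1 : ∀ i : ZMod p, ∑ j : ZMod p, ψ (-(a * j)) * (ψ (i * j) * X i)
      = (if i - a = 0 then (p : L) else 0) * X i := by
    intro i
    have h := AddChar.sum_mulShift (i - a) hψ
    rw [ZMod.card] at h
    have h2 : ∀ j : ZMod p, ψ (-(a * j)) * (ψ (i * j) * X i) = ψ (j * (i - a)) * X i := by
      intro j
      rw [← mul_assoc, ← AddChar.map_add_eq_mul]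
      congr 2
      ring
    simp only [h2]
    rw [← Finset.sum_mul, h]
    split_ifs <;> simp
  simp only [h1, sub_eq_zero]
  rw [Finset.sum_eq_single a]
  · simp
  · intro b _ hb
    simp [hb]
  · intro h
    exact absurd (Finset.mem_univ a) h

lemma sum_resolvent_sub {ψ : AddChar (ZMod p) L} (hψ : ψ.IsPrimitive) (X : ZMod p → L)
    (a b : ZMod p) :
    ∑ j : ZMod p, (ψ (-(a * j)) - ψ (-(b * j))) * resolvent ψ X j = (p : L) * (X a - X b) := by
  simp only [sub_mul]
  rw [Finset.sum_sub_distrib, sum_resolvent hψ, sum_resolvent hψ, mul_sub]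

/-- the action of an automorphism translating the family on the resolvents -/
lemma map_resolvent {ψ : AddChar (ZMod p) L} (s : L →+* L) (hs : ∀ a, s (ψ a) = ψ a)
    (X : ZMod p → L) (n : ZMod p) (hX : ∀ i, s (X i) = X (i + n)) (j : ZMod p) :
    s (resolvent ψ X j) = ψ (-(n * j)) * resolvent ψ X j := by
  simp only [resolvent, map_sum, map_mul, hs, hX, Finset.mul_sum]
  refine Fintype.sum_equiv (Equiv.addRight n) _ _ ?_
  intro i
  simp only [Equiv.coe_addRight]
  rw [← mul_assoc, ← AddChar.map_add_eq_mul]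
  congr 2
  ring


/-- **Resolvent lemma.**  If the `p`-th powers of the resolvents and the quotients
`γ j / γ j' ^ k` (`j = k j'`) have tame valuation, and `X a - X b` has tame valuation for some
`a ≠ b`, then some resolvent `γ j`, `j ≠ 0`, is nonzero with tame valuation. -/
theorem exists_resolvent_inTame {ζ : L} (hζ : IsPrimitiveRoot ζ p) (X : ZMod p → L)
    (hpow : ∀ j : ZMod p, resolvent (resChar hζ) X j ≠ 0 →
      InTame A p (A.valuation (resolvent (resChar hζ) X j) ^ p))
    (hquot : ∀ j j' : ZMod p, j' ≠ 0 → resolvent (resChar hζ) X j ≠ 0 →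
      resolvent (resChar hζ) X j' ≠ 0 →
      InTame A p (A.valuation (resolvent (resChar hζ) X j) /
        A.valuation (resolvent (resChar hζ) X j') ^ (j / j').val))
    {a b : ZMod p} (hab : a ≠ b) (hdiff : InTame A p (A.valuation (X a - X b))) :
    ∃ j : ZMod p, j ≠ 0 ∧ resolvent (resChar hζ) X j ≠ 0 ∧
      InTame A p (A.valuation (resolvent (resChar hζ) X j)) := by
  classical
  haveI : NeZero p := ⟨hp.out.ne_zero⟩
  set ψ := resChar hζ with hψdef
  set γ := resolvent ψ X with hγdef
  set v := A.valuation with hvdef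
  have hψ : ψ.IsPrimitive := resChar_isPrimitive hζ
  have hp0 : v (p : L) ≠ 0 := by
    rw [Ne, map_eq_zero]; exact_mod_cast hp.out.ne_zero
  by_contra hcon
  push Not at hcon
  -- the coefficients
  set c : ZMod p → L := fun j => ψ (-(a * j)) - ψ (-(b * j)) with hc
  have hsum : ∑ j : ZMod p, c j * γ j = (p : L) * (X a - X b) := sum_resolvent_sub hψ X a b
  have hc0 : c 0 = 0 := by simp [hc]
  have hcv : ∀ j : ZMod p, j ≠ 0 → v (c j) = v (ζ - 1) := by
    intro j hj
    apply val_resChar_sub hζ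
    intro h
    have h1 : a * j = b * j := neg_injective h
    exact hab (mul_right_cancel₀ hj h1)
  have hε0 : v (ζ - 1) ≠ 0 := val_zeta_sub_one_ne_zero hζ
  have hXab : X a - X b ≠ 0 := by
    intro h
    have := hdiff.ne_zero
    rw [h, map_zero] at this
    exact this rfl
  -- the set of relevant indices
  set J : Finset (ZMod p) := Finset.univ.filter (fun j => j ≠ 0 ∧ γ j ≠ 0) with hJ
  have hJne : J.Nonempty := by
    by_contra hne
    rw [Finset.not_nonempty_iff_eq_empty] at hne
    have hall : ∀ j : ZMod p, c j * γ j = 0 := by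
      intro j
      by_cases hj : j = 0
      · rw [hj, hc0, zero_mul]
      · by_cases hg : γ j = 0
        · rw [hg, mul_zero]
        · exfalso
          have : j ∈ J := by rw [hJ, Finset.mem_filter]; exact ⟨Finset.mem_univ _, hj, hg⟩
          rw [hne] at this
          exact absurd this (Finset.notMem_empty _)
    rw [Finset.sum_eq_zero (fun j _ => hall j)] at hsum
    have hpL : (p : L) ≠ 0 := by exact_mod_cast hp.out.ne_zero
    exact (mul_ne_zero hpL hXab) hsum.symm
  obtain ⟨j₀, hj₀J, hmax⟩ := Finset.exists_max_image J (fun j => v (γ j)) hJne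
  have hj₀ : j₀ ≠ 0 ∧ γ j₀ ≠ 0 := by
    rw [hJ, Finset.mem_filter] at hj₀J; exact hj₀J.2
  have hnot : ¬ InTame A p (v (γ j₀)) := hcon j₀ hj₀.1 hj₀.2
  have hg0 : v (γ j₀) ≠ 0 := by rw [Ne, map_eq_zero]; exact hj₀.2
  -- strict maximality
  have hstrict : ∀ j ∈ J, j ≠ j₀ → v (γ j) < v (γ j₀) := by
    intro j hjJ hjne
    have hj : j ≠ 0 ∧ γ j ≠ 0 := by
      rw [hJ, Finset.mem_filter] at hjJ; exact hjJ.2
    refine lt_of_le_of_ne (hmax j hjJ) ?_
    intro heq
    apply hnot
    have hq := hquot j j₀ hj₀.1 hj.2 hj₀.2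
    rw [heq] at hq
    set k : ℕ := (j / j₀).val with hk
    have hk1 : k ≠ 1 := by
      intro h1
      have : j / j₀ = 1 := by
        have h2 : ((j / j₀).val : ZMod p) = ((1 : ℕ) : ZMod p) := by rw [← hk, h1]
        rwa [ZMod.natCast_zmod_val, Nat.cast_one] at h2
      rw [div_eq_one_iff_eq hj₀.1] at this
      exact hjne this
    have hklt : k < p := ZMod.val_lt _
    rcases Nat.eq_zero_or_pos k with hk0 | hkpos
    · rw [hk0, pow_zero, div_one] at hq
      exact hq
    · have hk2 : 2 ≤ k := by omega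
      have hq' : InTame A p (v (γ j₀) ^ (k - 1)) := by
        have e : v (γ j₀) ^ (k - 1) = (v (γ j₀) / v (γ j₀) ^ k)⁻¹ := by
          rw [inv_div, eq_div_iff hg0]
          rw [← pow_succ]
          congr 1
          omega
        rw [e]
        exact hq.inv
      have hcop : Nat.Coprime (k - 1) p := by
        rw [Nat.coprime_comm, Nat.Prime.coprime_iff_not_dvd hp.out]
        intro hdvd
        have := Nat.le_of_dvd (by omega) hdvd
        omega
      exact inTame_of_pow_coprime hg0 hcop hq' (hpow j₀ hj₀.2)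
  -- the dominant term
  have hdom : v (∑ j : ZMod p, c j * γ j) = v (c j₀ * γ j₀) := by
    apply Valuation.map_sum_eq_of_lt v (Finset.mem_univ j₀)
    intro j hj
    rw [Finset.mem_sdiff, Finset.mem_singleton] at hj
    have hpos : 0 < v (c j₀ * γ j₀) := by
      rw [map_mul, hcv j₀ hj₀.1]
      exact mul_pos (zero_lt_iff.mpr hε0) (zero_lt_iff.mpr hg0)
    by_cases hj0 : j = 0
    · rw [hj0, hc0, zero_mul, map_zero]; exact hpos
    by_cases hg : γ j = 0
    · rw [hg, mul_zero, map_zero]; exact hpos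
    have hjJ : j ∈ J := by rw [hJ, Finset.mem_filter]; exact ⟨Finset.mem_univ _, hj0, hg⟩
    rw [map_mul, map_mul, hcv j hj0, hcv j₀ hj₀.1]
    exact mul_lt_mul_of_pos_left (hstrict j hjJ hj.2) (zero_lt_iff.mpr hε0)
  rw [hsum, map_mul, map_mul, hcv j₀ hj₀.1] at hdom
  apply hnot
  have e : v (γ j₀) = v (p : L) * v (X a - X b) * (v (ζ - 1))⁻¹ := by
    rw [hdom, mul_comm (v (ζ - 1)), mul_assoc, mul_inv_cancel₀ hε0, mul_one]
  rw [e]
  exact ((inTame_val_p).mul hdiff hp0).mul (inTame_val_zeta_sub_one hζ).inv hp0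

/-- **Galois form.**  `𝓗` a set of automorphisms of `L` fixing `ζ` and translating the family
`X` (`s (X i) = X (i + n s)`).  If every nonzero `𝓗`-fixed element has tame valuation and
`X a - X b` has tame valuation for some `a ≠ b`, then there is a unit `y` of `A` with `y ^ p`
fixed by `𝓗` which detects `n`: `s y = y → n s = 0`. -/
theorem exists_unit_of_family {G : Type*} (act : G → L →+* L) (𝓗 : Set G) (n : G → ZMod p)
    {ζ : L} (hζ : IsPrimitiveRoot ζ p) (hfixζ : ∀ s ∈ 𝓗, act s ζ = ζ)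
    (X : ZMod p → L) (hX : ∀ s ∈ 𝓗, ∀ i, act s (X i) = X (i + n s))
    (hVG : ∀ a : L, a ≠ 0 → (∀ s ∈ 𝓗, act s a = a) → InTame A p (A.valuation a))
    {a b : ZMod p} (hab : a ≠ b) (hdiff : InTame A p (A.valuation (X a - X b))) :
    ∃ y : L, A.valuation y = 1 ∧ (∀ s ∈ 𝓗, act s (y ^ p) = y ^ p) ∧
      ∀ s ∈ 𝓗, act s y = y → n s = 0 := by
  classical
  haveI : NeZero p := ⟨hp.out.ne_zero⟩
  set ψ := resChar hζ with hψdef
  set γ := resolvent ψ X with hγdef
  have hp0 : A.valuation (p : L) ≠ 0 := by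
    rw [Ne, map_eq_zero]; exact_mod_cast hp.out.ne_zero
  have hpL : (p : L) ≠ 0 := by exact_mod_cast hp.out.ne_zero
  have hact : ∀ s ∈ 𝓗, ∀ j, act s (γ j) = ψ (-(n s * j)) * γ j := fun s hs j =>
    map_resolvent (act s) (fun a => map_resChar hζ (act s) (hfixζ s hs) a) X (n s) (hX s hs) j
  have hpow : ∀ j : ZMod p, γ j ≠ 0 → InTame A p (A.valuation (γ j) ^ p) := by
    intro j hj
    rw [← map_pow]
    apply hVG _ (pow_ne_zero _ hj)
    intro s hs
    rw [map_pow, hact s hs, mul_pow, resChar_pow_p, one_mul]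
  have hquot : ∀ j j' : ZMod p, j' ≠ 0 → γ j ≠ 0 → γ j' ≠ 0 →
      InTame A p (A.valuation (γ j) / A.valuation (γ j') ^ (j / j').val) := by
    intro j j' hj' hg hg'
    rw [← map_pow, ← map_div₀]
    apply hVG _ (div_ne_zero hg (pow_ne_zero _ hg'))
    intro s hs
    rw [map_div₀, map_pow, hact s hs, hact s hs, mul_pow, ← AddChar.map_nsmul_eq_pow]
    have e : (j / j').val • (-(n s * j')) = -(n s * j) := by
      rw [nsmul_eq_mul, ZMod.natCast_zmod_val]
      field_simp
    rw [e, mul_div_mul_left _ _ (resChar_ne_zero hζ _)]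
  obtain ⟨j, hj0, hgj, k, hk⟩ := exists_resolvent_inTame hζ X hpow hquot hab hdiff
  refine ⟨γ j ^ (p - 1) / (p : L) ^ k, ?_, ?_, ?_⟩
  · rw [map_div₀, map_pow, map_zpow₀, hk, div_self (zpow_ne_zero k hp0)]
  · intro s hs
    rw [map_pow, map_div₀, map_pow, map_zpow₀, map_natCast, hact s hs, mul_pow, mul_div_assoc,
      mul_pow, ← pow_mul, mul_comm (p - 1) p, pow_mul, resChar_pow_p, one_pow, one_mul]
  · intro s hs hy
    rw [map_div₀, map_pow, map_zpow₀, map_natCast, hact s hs, mul_pow, mul_div_assoc] at hy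
    have hy0 : γ j ^ (p - 1) / (p : L) ^ k ≠ 0 :=
      div_ne_zero (pow_ne_zero _ hgj) (zpow_ne_zero k hpL)
    have h1 : ψ (-(n s * j)) ^ (p - 1) = 1 := by
      have := mul_right_cancel₀ hy0 (hy.trans (one_mul _).symm)
      exact this
    rw [← AddChar.map_nsmul_eq_pow, resChar_eq_one_iff] at h1
    have h2 : ((p - 1 : ℕ) : ZMod p) = -1 := by
      rw [Nat.cast_sub hp.out.one_le, ZMod.natCast_self, Nat.cast_one, zero_sub]
    rw [nsmul_eq_mul, h2] at h1
    have h3 : n s * j = 0 := by
      have : (-1 : ZMod p) * -(n s * j) = n s * j := by ring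
      rw [← this]; exact h1
    rcases mul_eq_zero.mp h3 with h | h
    · exact h
    · exact absurd h hj0

end resolvent

end Fermat.Agent.Ribet.H420
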