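import Fermat.Agent.S13.H64.AtP
import Fermat.Agent.Ribet.H187.ELocKummer
import Fermat.Agent.Ribet.H420.Resolvent

/-!
# RIBET / ELOC-Frey (helper420): the valuation of `η = 2y + a₁x + a₃` at `p`-torsion points

For an integral `p`-torsion point `(x, y)` of the Frey curve at a place `A` over an odd prime `q`
of multiplicative reduction (`q ∣ abc`), `v η = v c` for a nonzero integer `c`
(`frey_exists_val_eta`): this is the "slope lemma" inside `Fermat.Agent.S13.H64.inKer_sub_of_node`.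
Hence `v η` is tame (`frey_inTame_val_eta`, for `q = p`).
-/

set_option autoImplicit false
set_option linter.unusedSectionVars false
set_option linter.unusedVariables false

namespace Fermat.Agent.Ribet.H420

open WeierstrassCurve WeierstrassCurve.Affine WeierstrassCurve.Affine.Point
open Fermat.Agent.S05 Fermat.Agent.S05.SameRed Fermat.Agent.S05.Assemble
open Fermat.Agent.S13.H64

section abstract

variable {K : Type*} [Field K] [DecidableEq K]
  {Γ₀ : Type*} [LinearOrderedCommGroupWithZero Γ₀]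
variable {W : Affine K} {v : Valuation K Γ₀}

/-- The valuation of `η` at an integral odd torsion point, node case: a power of `v π`. -/
theorem exists_val_eta_of_node (hW : IntegralCoeffs W v) (h2 : v (2 : K) = 1)
    {n : ℕ} (hn : Odd n)
    {e₁ α β : K} (hr : Roots W e₁ (e₁ + α) (e₁ + β)) (he₁ : v e₁ ≤ 1) (hα : v α < 1)
    (hβ : v β = 1)
    {π : K} (hπ : v π ^ n = v α ^ 2)
    (hC3 : NodeTorsion W v e₁ α n)
    {x y : K} (h : W.Nonsingular x y)
    (hP : n • Point.some x y h = 0) (hx : v x ≤ 1) :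
    ∃ j : ℕ, v (2 * y + W.a₁ * x + W.a₃) = v (π ^ j) := by
  have hy : v y ≤ 1 := Assemble.val_y_le_one hW h.1 hx
  have h4 := val_four (v := v) h2
  have hn0 : n ≠ 0 := hn.pos.ne'
  have hxe : v (x - e₁) ≤ 1 := val_sub_le_one hx he₁
  have hr₂ : v (e₁ + α) ≤ 1 := val_add_le_one he₁ hα.le
  have hr₃ : v (e₁ + β) ≤ 1 := val_add_le_one he₁ hβ.le
  have hβα : v (β - α) = 1 := by
    rw [val_sub_eq_of_lt (by rw [hβ]; exact hα), hβ]
  rcases hxe.lt_or_eq with hlt | heq
  · -- off `E₀`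
    obtain ⟨hαx, j, hj⟩ := hC3 x y h hP hlt
    have hvc : v (π ^ j) = v (x - e₁) := by
      apply pow_eq_pow_imp_eq hn0
      rw [hj, map_pow, ← pow_mul, mul_comm, pow_mul, hπ, ← pow_mul]
    have hxα : v (x - (e₁ + α)) = v (x - e₁) := by
      have : x - (e₁ + α) = (x - e₁) - α := by ring
      rw [this, val_sub_eq_of_lt hαx]
    have hxβ : v (x - (e₁ + β)) = 1 := by
      have : x - (e₁ + β) = (x - e₁) - β := by ring
      rw [this, val_sub_eq_of_lt' (by rw [hβ]; exact hlt), hβ]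
    refine ⟨j, ?_⟩
    apply pow_eq_pow_imp_eq (n := 2) (by norm_num)
    rw [← map_pow, hr.eta_sq h.1, map_mul, map_mul, map_mul, h4, hxα, hxβ, hvc]
    simp [pow_two]
  · -- on `E₀`
    refine ⟨0, ?_⟩
    rw [pow_zero, map_one]
    apply val_eta_eq_one_of_integral_torsion hW h2 hn h hP hx
    intro hη
    have hsq := val_eta_sq_lt_one hη
    rw [hr.eta_sq h.1, map_mul, h4, one_mul] at hsq
    have hxα : v (x - (e₁ + α)) = 1 := by
      have : x - (e₁ + α) = (x - e₁) - α := by ring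
      rw [this, val_sub_eq_of_lt (by rw [heq]; exact hα), heq]
    have h3 : v (x - (e₁ + β)) < 1 := by
      rw [map_mul, map_mul, heq, hxα, one_mul, one_mul] at hsq
      exact hsq
    have h31 : v (e₁ + β - e₁) = 1 := by
      have : e₁ + β - e₁ = β := by ring
      rw [this, hβ]
    have h32 : v (e₁ + β - (e₁ + α)) = 1 := by
      have : e₁ + β - (e₁ + α) = β - α := by ring
      rw [this, hβα]
    exact hr.swap₁₃.val_WX_eq_one hW h2 hx hr₃ hr₂ he₁ hη h3 h32 h31

end abstract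

section frey

/-- At a place `A` over an odd prime `q ∣ abc`, the `η`-coordinate of an integral `p`-torsion
point of the Frey curve has the valuation of a nonzero integer. -/
theorem frey_exists_val_eta (P : FreyPackage) {q : ℕ} (hq : q.Prime) (hq2 : q ≠ 2)
    (hqabc : (q : ℤ) ∣ P.a * P.b * P.c)
    (A : ValuationSubring Qb) (hA : A.LiesOverPrime q)
    {x y : Qb} (h : (P.freyCurve⁄Qb).Nonsingular x y)
    (hP : P.p • Point.some x y h = 0) (hx : A.valuation x ≤ 1) :
    ∃ c : ℤ, c ≠ 0 ∧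
      A.valuation (2 * y + (P.freyCurve⁄Qb).a₁ * x + (P.freyCurve⁄Qb).a₃)
        = A.valuation (c : Qb) := by
  have hW := frey_integral (P := P) hA hq hq2
  have h2 := val_two_eq_one hA hq hq2
  have h4 := val_four_eq_one hA hq hq2
  have hodd : Odd P.p := P.hp_odd
  have hroots := frey_roots P
  have hqZ : Prime (q : ℤ) := Nat.prime_iff_prime_int.mp hq
  by_cases ha : (q : ℤ) ∣ P.a
  · have hb : ¬ (q : ℤ) ∣ P.b := not_dvd_of_gcd_eq_one hq P.hgcdab ha
    have hr : Roots (P.freyCurve⁄Qb) 0 (0 + fA P / 4) (0 + -(fB P) / 4) := by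
      simpa using hroots
    have hα : A.valuation (fA P / 4) < 1 := by
      rw [val_div_four h4]; exact val_fA_lt_one hA ha
    have hβ : A.valuation (-(fB P) / 4) = 1 := by
      rw [val_neg_div_four h4]; exact val_fB_eq_one hA hq hb
    have hα0 : fA P / 4 ≠ 0 := div_ne_zero (fA_ne_zero P) four_ne_zero_Qb
    have hπ : A.valuation (((P.a ^ 2 : ℤ) : Qb)) ^ P.p = A.valuation (fA P / 4) ^ 2 := by
      rw [val_div_four h4]; exact val_sq_pow _ _
    obtain ⟨j, hj⟩ := exists_val_eta_of_node hW h2 hodd hr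
      (by rw [_root_.map_zero]; exact zero_le_one) hα hβ hπ
      (nodeTorsion_of_c3c h2 hr hα0 hα hβ hodd) h hP hx
    refine ⟨(P.a ^ 2) ^ j, pow_ne_zero _ (pow_ne_zero _ P.ha0), ?_⟩
    rw [hj]; push_cast; rfl
  by_cases hb : (q : ℤ) ∣ P.b
  · have hr : Roots (P.freyCurve⁄Qb) 0 (0 + -(fB P) / 4) (0 + fA P / 4) := by
      have := hroots.swap₁₂.swap₁₃.swap₁₂
      simpa using this
    have hα : A.valuation (-(fB P) / 4) < 1 := by
      rw [val_neg_div_four h4]; exact val_fB_lt_one hA hb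
    have hβ : A.valuation (fA P / 4) = 1 := by
      rw [val_div_four h4]; exact val_fA_eq_one hA hq ha
    have hα0 : -(fB P) / 4 ≠ 0 := div_ne_zero (neg_ne_zero.mpr (fB_ne_zero P)) four_ne_zero_Qb
    have hπ : A.valuation (((P.b ^ 2 : ℤ) : Qb)) ^ P.p = A.valuation (-(fB P) / 4) ^ 2 := by
      rw [val_neg_div_four h4]; exact val_sq_pow _ _
    obtain ⟨j, hj⟩ := exists_val_eta_of_node hW h2 hodd hr
      (by rw [_root_.map_zero]; exact zero_le_one) hα hβ hπ
      (nodeTorsion_of_c3c h2 hr hα0 hα hβ hodd) h hP hx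
    refine ⟨(P.b ^ 2) ^ j, pow_ne_zero _ (pow_ne_zero _ P.hb0), ?_⟩
    rw [hj]; push_cast; rfl
  have hc : (q : ℤ) ∣ P.c := by
    rcases hqZ.dvd_mul.mp hqabc with h1 | h1
    · rcases hqZ.dvd_mul.mp h1 with h2 | h2
      · exact absurd h2 ha
      · exact absurd h2 hb
    · exact h1
  have hABC := fA_add_fB P
  have hr : Roots (P.freyCurve⁄Qb) (fA P / 4) (fA P / 4 + -(fC P) / 4)
      (fA P / 4 + -(fA P) / 4) := by
    have e1 : fA P / 4 + -(fC P) / 4 = -(fB P) / 4 := by rw [← hABC]; ring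
    have e2 : fA P / 4 + -(fA P) / 4 = 0 := by ring
    rw [e1, e2]
    exact hroots.swap₁₃.swap₁₂
  have he : A.valuation (fA P / 4) ≤ 1 := by
    rw [val_div_four h4]; exact val_fA_le_one
  have hα : A.valuation (-(fC P) / 4) < 1 := by
    rw [val_neg_div_four h4]; exact val_fC_lt_one hA hc
  have hβ : A.valuation (-(fA P) / 4) = 1 := by
    rw [val_neg_div_four h4]; exact val_fA_eq_one hA hq ha
  have hα0 : -(fC P) / 4 ≠ 0 := div_ne_zero (neg_ne_zero.mpr (fC_ne_zero P)) four_ne_zero_Qb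
  have hπ : A.valuation (((P.c ^ 2 : ℤ) : Qb)) ^ P.p = A.valuation (-(fC P) / 4) ^ 2 := by
    rw [val_neg_div_four h4]; exact val_sq_pow _ _
  obtain ⟨j, hj⟩ := exists_val_eta_of_node hW h2 hodd hr he hα hβ hπ
    (nodeTorsion_of_c3c h2 hr hα0 hα hβ hodd) h hP hx
  refine ⟨(P.c ^ 2) ^ j, pow_ne_zero _ (pow_ne_zero _ P.hc0), ?_⟩
  rw [hj]; push_cast; rfl

/-- Tame form (at `q = p`). -/
theorem frey_inTame_val_eta (P : FreyPackage) (hpabc : (P.p : ℤ) ∣ P.a * P.b * P.c)
    (A : ValuationSubring Qb) (hA : A.LiesOverPrime P.p)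
    {x y : Qb} (h : (P.freyCurve⁄Qb).Nonsingular x y)
    (hP : P.p • Point.some x y h = 0) (hx : A.valuation x ≤ 1) :
    InTame A P.p
      (A.valuation (2 * y + (P.freyCurve⁄Qb).a₁ * x + (P.freyCurve⁄Qb).a₃)) := by
  have hp2 : P.p ≠ 2 := by have := P.hp5; omega
  obtain ⟨c, hc0, hc⟩ := frey_exists_val_eta P P.pp hp2 hpabc A hA h hP hx
  obtain ⟨k, hk⟩ := Fermat.Agent.Ribet.H187.val_intCast_eq_pow A P.pp hA c hc0
  rw [hc, hk]
  exact ⟨(k : ℤ) * ((P.p - 1 : ℕ) : ℤ), by
    rw [← pow_mul, zpow_mul, zpow_natCast, zpow_natCast, ← pow_mul]⟩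

end frey

end Fermat.Agent.Ribet.H420
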