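import Mathlib
import Fermat.Agent.Ribet.H187.ELocVal

/-!
# RIBET / ELOC-Frey (helper420): a two-slope Newton polygon

`f ∈ ℤ[X]` of degree `D` with leading coefficient `p`, `v p < 1`, such that the coefficient of
`X ^ (D - m)` is a `v`-unit and all higher coefficients have valuation `< 1` (hence `≤ v p`).
Then every root `x` with `1 < v x` satisfies `v p * v x ^ m = 1` (`val_root_of_two_slopes`).

Applied to the `p`-division polynomial of a curve with ordinary or multiplicative reduction
(`D = (p² - 1)/2`, `m = (p - 1)/2`) this is the valuation of the `x`-coordinate of the `p`-torsion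
points in the kernel of reduction.
-/

set_option autoImplicit false
set_option linter.unusedSectionVars false
set_option linter.unusedVariables false

namespace Fermat.Agent.Ribet.H420

open Polynomial Fermat.Agent.Ribet.H187

variable {K : Type*} [Field K] {Γ₀ : Type*} [LinearOrderedCommGroupWithZero Γ₀]
  (v : Valuation K Γ₀)

theorem val_root_of_two_slopes {p : ℕ} (hp : p.Prime) (hpv : v (p : K) < 1) (hpK : (p : K) ≠ 0)
    (f : ℤ[X]) (D m : ℕ) (hm : 0 < m) (hmD : m ≤ D) (hdeg : f.natDegree ≤ D)
    (hlead : f.coeff D = p)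
    (hunit : v ((f.coeff (D - m) : ℤ) : K) = 1)
    (hmid : ∀ k, D - m < k → v ((f.coeff k : ℤ) : K) < 1)
    (x : K) (hx : 1 < v x) (hroot : (f.map (Int.castRingHom K)).eval x = 0) :
    v (p : K) * v x ^ m = 1 := by
  classical
  have hx0 : v x ≠ 0 := (lt_trans zero_lt_one hx).ne'
  have hxpos : 0 < v x := lt_trans zero_lt_one hx
  have hp0 : v (p : K) ≠ 0 := by rwa [Ne, map_eq_zero]
  have hppos : 0 < v (p : K) := zero_lt_iff.mpr hp0
  set T : ℕ → K := fun k => ((f.coeff k : ℤ) : K) * x ^ k with hT
  have hsum : ∑ k ∈ Finset.range (D + 1), T k = 0 := by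
    have h1 := Polynomial.eval_eq_sum_range' (p := f.map (Int.castRingHom K)) (n := D + 1)
      (lt_of_le_of_lt (Polynomial.natDegree_map_le) (Nat.lt_succ_of_le hdeg)) x
    rw [hroot] at h1
    rw [h1]
    apply Finset.sum_congr rfl
    intro k _
    simp [hT, Polynomial.coeff_map]
  have hle1 : ∀ k, v ((f.coeff k : ℤ) : K) ≤ 1 := fun k => val_intCast_le_one v _
  have hlep : ∀ k, D - m < k → v ((f.coeff k : ℤ) : K) ≤ v (p : K) := fun k hk =>
    val_intCast_le_of_lt_one v hp hpv _ (hmid k hk)
  have hTD : v (T D) = v (p : K) * v x ^ D := by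
    simp only [hT, hlead, map_mul, map_pow]
    norm_cast
  have hTm : v (T (D - m)) = v x ^ (D - m) := by
    simp only [hT, map_mul, map_pow, hunit, one_mul]
  have hsplit : v x ^ D = v x ^ m * v x ^ (D - m) := by
    rw [← pow_add]; congr 1; omega
  by_contra hne
  rcases lt_or_gt_of_ne hne with hlt | hgt
  · -- the term `D - m` dominates
    have hdom : v (∑ k ∈ Finset.range (D + 1), T k) = v (T (D - m)) := by
      apply Valuation.map_sum_eq_of_lt v (Finset.mem_range.mpr (by omega))
      intro k hk
      rw [Finset.mem_sdiff, Finset.mem_range, Finset.mem_singleton] at hk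
      rw [hTm]
      rcases lt_or_gt_of_ne hk.2 with h1 | h1
      · calc v (T k) = v ((f.coeff k : ℤ) : K) * v x ^ k := by simp only [hT, map_mul, map_pow]
          _ ≤ 1 * v x ^ k := mul_le_mul_left (hle1 k) _
          _ = v x ^ k := one_mul _
          _ < v x ^ (D - m) := pow_lt_pow_right₀ hx h1
      · have hk' : k - (D - m) ≤ m := by omega
        calc v (T k) = v ((f.coeff k : ℤ) : K) * v x ^ k := by simp only [hT, map_mul, map_pow]
          _ ≤ v (p : K) * v x ^ k := mul_le_mul_left (hlep k h1) _
          _ = v (p : K) * (v x ^ (k - (D - m)) * v x ^ (D - m)) := by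
              rw [← pow_add]; congr 2; omega
          _ ≤ v (p : K) * (v x ^ m * v x ^ (D - m)) := by
              gcongr
              exact hx.le
          _ = (v (p : K) * v x ^ m) * v x ^ (D - m) := by rw [mul_assoc]
          _ < 1 * v x ^ (D - m) := mul_lt_mul_of_pos_right hlt (pow_pos hxpos _)
          _ = v x ^ (D - m) := one_mul _
    rw [hsum, map_zero, hTm] at hdom
    exact pow_ne_zero _ hx0 hdom.symm
  · -- the term `D` dominates
    have hdom : v (∑ k ∈ Finset.range (D + 1), T k) = v (T D) := by
      apply Valuation.map_sum_eq_of_lt v (Finset.mem_range.mpr (by omega))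
      intro k hk
      rw [Finset.mem_sdiff, Finset.mem_range, Finset.mem_singleton] at hk
      rw [hTD]
      have hkD : k < D := by omega
      by_cases h1 : k ≤ D - m
      · calc v (T k) = v ((f.coeff k : ℤ) : K) * v x ^ k := by simp only [hT, map_mul, map_pow]
          _ ≤ 1 * v x ^ k := mul_le_mul_left (hle1 k) _
          _ = v x ^ k := one_mul _
          _ ≤ v x ^ (D - m) := pow_le_pow_right₀ hx.le h1
          _ = 1 * v x ^ (D - m) := (one_mul _).symm
          _ < (v (p : K) * v x ^ m) * v x ^ (D - m) :=
              mul_lt_mul_of_pos_right hgt (pow_pos hxpos _)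
          _ = v (p : K) * v x ^ D := by rw [hsplit, mul_assoc]
      · calc v (T k) = v ((f.coeff k : ℤ) : K) * v x ^ k := by simp only [hT, map_mul, map_pow]
          _ ≤ v (p : K) * v x ^ k := mul_le_mul_left (hlep k (by omega)) _
          _ < v (p : K) * v x ^ D :=
              mul_lt_mul_of_pos_left (pow_lt_pow_right₀ hx hkD) hppos
    rw [hsum, map_zero, hTD] at hdom
    exact (mul_ne_zero hp0 (pow_ne_zero _ hx0)) hdom.symm

end Fermat.Agent.Ribet.H420
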