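import Fermat.Agent.S59.H396.TorsionCount
import Fermat.Agent.Ribet.H104.FreyModelAtP
import Fermat.Agent.Ribet.H187.ELocMain
import Fermat.Agent.Ribet.H420.KerVal
import Fermat.Agent.S05.AssembleFrey
import Fermat.Agent.S13.H64.LineP

/-!
# RIBET / ELOC-Frey (helper420): the `p`-torsion of the Frey curve in the kernel of reduction

`P` a Frey package with `p ∣ abc`, `A` a valuation subring of `ℚ̄` over `p`, `E = P.freyCurve⁄ℚ̄`
(multiplicative reduction at `A`).

* `frey_ncard_inKer` : exactly `p` points of `E[p]` lie in the kernel of reduction `E₁`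
  (landed `Fermat.Agent.S59.H396.ncard_torsion_inKer`);
* `frey_val_xc_of_inKer` : a nonzero point `T ∈ E[p] ∩ E₁` has `v p * v (x T) ^ ((p-1)/2) = 1`
  (two-slope Newton polygon of the `p`-division polynomial);
* `frey_exists_generator` : `E[p] ∩ E₁ = {n • t}` for some `t ≠ 0`.
-/

set_option autoImplicit false
set_option linter.unusedSectionVars false
set_option linter.unusedVariables false
set_option linter.style.haveILetI false

namespace Fermat.Agent.Ribet.H420

open WeierstrassCurve WeierstrassCurve.Affine Polynomial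
open Fermat.Agent.S05.SameRed (InKer)
open Fermat.Agent.S51.Five (xc xc_some)
open Fermat.Agent.S13.H891 (polyW map_polyW dc_polyW torsion_iff_root)
open Fermat.Agent.S59.H396

local notation "Qb" => AlgebraicClosure ℚ

variable (P : FreyPackage) (A : ValuationSubring Qb)

/-- the integral Frey curve over the valuation ring `A` -/
noncomputable def freyW₀ : WeierstrassCurve A := P.freyCurveInt.map (algebraMap ℤ A)

lemma frey_eq_curveK : (P.freyCurve⁄Qb) = curveK A (freyW₀ P A) := by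
  have h1 : (P.freyCurve⁄Qb) = (P.freyCurveInt.map (Int.castRingHom ℚ)).map (algebraMap ℚ Qb) := by
    rw [← Fermat.Agent.Ribet.H104.freyCurve_eq_map P]
    rfl
  rw [h1]
  show _ = (P.freyCurveInt.map (algebraMap ℤ A)).map (algebraMap A Qb)
  rw [WeierstrassCurve.map_map, WeierstrassCurve.map_map]
  exact congrArg _ (RingHom.ext_int _ _)

variable {A}

lemma natCast_mem_maximalIdeal {p : ℕ} (hA : A.LiesOverPrime p) :
    (p : A) ∈ IsLocalRing.maximalIdeal A := by
  rw [ValuationSubring.valuation_lt_one_iff]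
  have : A.valuation (p : Qb) < 1 := A.mem_nonunits_iff.mp hA
  simpa using this

lemma intCast_mem_maximalIdeal_iff {p : ℕ} (hp : p.Prime) (hA : A.LiesOverPrime p) (c : ℤ) :
    algebraMap ℤ A c ∈ IsLocalRing.maximalIdeal A ↔ (p : ℤ) ∣ c := by
  rw [ValuationSubring.valuation_lt_one_iff]
  have e : ((algebraMap ℤ A c : A) : Qb) = (c : Qb) := by simp
  rw [e]
  constructor
  · intro h
    exact Fermat.Agent.Ribet.H187.intCast_dvd_of_val_lt_one A.valuation hp
      (A.mem_nonunits_iff.mp hA) c h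
  · intro h
    exact Fermat.Agent.S05.Assemble.val_int_lt_one hA h

lemma freyW₀_Δ_mem (hpabc : (P.p : ℤ) ∣ P.a * P.b * P.c) (hA : A.LiesOverPrime P.p) :
    (freyW₀ P A).Δ ∈ IsLocalRing.maximalIdeal A := by
  have hp2 : P.p ≠ 2 := by have := P.hp5; omega
  rw [freyW₀, WeierstrassCurve.map_Δ, intCast_mem_maximalIdeal_iff P.pp hA]
  exact Fermat.Agent.Ribet.H104.dvd_Δ_of_dvd_abc P P.pp hp2 hpabc

lemma freyW₀_c₄_not_mem (hpabc : (P.p : ℤ) ∣ P.a * P.b * P.c) (hA : A.LiesOverPrime P.p) :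
    (freyW₀ P A).c₄ ∉ IsLocalRing.maximalIdeal A := by
  rw [freyW₀, WeierstrassCurve.map_c₄, intCast_mem_maximalIdeal_iff P.pp hA]
  intro h
  exact Fermat.Agent.Ribet.H104.not_dvd_abc_of_dvd_c₄ P (Nat.prime_iff_prime_int.mp P.pp) h hpabc

lemma frey_isElliptic : (P.freyCurve⁄Qb).IsElliptic := by
  constructor
  rw [isUnit_iff_ne_zero]
  show (P.freyCurve.map (algebraMap ℚ Qb)).Δ ≠ 0
  rw [WeierstrassCurve.map_Δ, Fermat.Agent.Ribet.H104.freyCurve_eq_map P, WeierstrassCurve.map_Δ]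
  apply (_root_.map_ne_zero _).mpr
  simpa using Fermat.Agent.Ribet.H104.Δ_ne_zero P

/-- transport of the count along an equality of curves -/
lemma ncard_inKer_of_eq {E : WeierstrassCurve.Affine Qb} (W₀ : WeierstrassCurve A)
    (hE : E = curveK A W₀) [hell : E.IsElliptic] (p : ℕ) [hp : Fact p.Prime] (hp2 : p ≠ 2)
    (hpV : (p : A) ∈ IsLocalRing.maximalIdeal A)
    (hΔ : W₀.Δ ∈ IsLocalRing.maximalIdeal A) (hc4 : W₀.c₄ ∉ IsLocalRing.maximalIdeal A) :
    Set.ncard {T : E.Point | p • T = 0 ∧ InKer E A.valuation T} = p := by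
  subst hE
  have := ncard_torsion_inKer A W₀ p hp2 hpV hΔ hc4 1
  simpa using this

/-- **`E[p]` meets the kernel of reduction in exactly `p` points.** -/
theorem frey_ncard_inKer (hpabc : (P.p : ℤ) ∣ P.a * P.b * P.c) (hA : A.LiesOverPrime P.p) :
    Set.ncard {T : (P.freyCurve⁄Qb).Point |
      P.p • T = 0 ∧ InKer (P.freyCurve⁄Qb) A.valuation T} = P.p := by
  haveI : Fact P.p.Prime := ⟨P.pp⟩
  haveI := frey_isElliptic P
  have hp2 : P.p ≠ 2 := by have := P.hp5; omega
  exact ncard_inKer_of_eq (freyW₀ P A) (frey_eq_curveK P A) P.p hp2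
    (natCast_mem_maximalIdeal hA) (freyW₀_Δ_mem P hpabc hA) (freyW₀_c₄_not_mem P hpabc hA)

/-- the `p`-division polynomial of the integral Frey curve, `p = 2m + 1` -/
noncomputable def freyPsi (m : ℕ) : ℤ[X] :=
  polyW P.freyCurveInt.b₂ P.freyCurveInt.b₄ P.freyCurveInt.b₆ P.freyCurveInt.b₈ m

lemma map_freyPsi_A (m : ℕ) :
    (freyPsi P m).map (algebraMap ℤ A) = polyWV A (freyW₀ P A) m := by
  rw [freyPsi, map_polyW, polyWV, freyW₀, WeierstrassCurve.map_b₂, WeierstrassCurve.map_b₄,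
    WeierstrassCurve.map_b₆, WeierstrassCurve.map_b₈]

lemma map_freyPsi_Qb (m : ℕ) :
    (freyPsi P m).map (Int.castRingHom Qb) =
      polyW (P.freyCurve⁄Qb).b₂ (P.freyCurve⁄Qb).b₄ (P.freyCurve⁄Qb).b₆ (P.freyCurve⁄Qb).b₈ m := by
  rw [freyPsi, Fermat.Agent.Ribet.H187.map_intCast_polyW,
    ← Fermat.Agent.Ribet.H104.freyCurve_eq_map P]

/-- **The valuation of the `x`-coordinate of a `p`-torsion point in the kernel of reduction.** -/
theorem frey_val_xc_of_inKer (hpabc : (P.p : ℤ) ∣ P.a * P.b * P.c) (hA : A.LiesOverPrime P.p)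
    (m : ℕ) (hm : P.p = 2 * m + 1)
    (T : (P.freyCurve⁄Qb).Point) (hT0 : T ≠ 0) (hTp : P.p • T = 0)
    (hker : 1 < A.valuation (xc T)) :
    A.valuation (P.p : Qb) * A.valuation (xc T) ^ m = 1 := by
  haveI : Fact P.p.Prime := ⟨P.pp⟩
  have hp2 : P.p ≠ 2 := by have := P.hp5; omega
  have hm1 : 1 ≤ m := by have := P.hp5; omega
  have hpv : A.valuation (P.p : Qb) < 1 := A.mem_nonunits_iff.mp hA
  have hpK : (P.p : Qb) ≠ 0 := Nat.cast_ne_zero.mpr P.pp.ne_zero
  obtain ⟨hdeg, hlead⟩ := dc_polyW P.freyCurveInt.b₂ P.freyCurveInt.b₄ P.freyCurveInt.b₆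
    P.freyCurveInt.b₈ m hm1
  -- the reduction
  have hres := natDegree_polyWV_res A (freyW₀ P A) P.p hp2 (natCast_mem_maximalIdeal hA)
    (freyW₀_Δ_mem P hpabc hA) (freyW₀_c₄_not_mem P hpabc hA) 1 m hm1 (by rw [pow_one, hm])
  rw [← map_freyPsi_A, Polynomial.map_map] at hres
  set φ : ℤ →+* IsLocalRing.ResidueField A := (IsLocalRing.residue A).comp (algebraMap ℤ A)
    with hφ
  have hcoeff : ∀ k, ((freyPsi P m).map φ).coeff k = 0 ↔
      A.valuation (((freyPsi P m).coeff k : ℤ) : Qb) < 1 := by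
    intro k
    rw [Polynomial.coeff_map, hφ, RingHom.comp_apply, IsLocalRing.residue_eq_zero_iff,
      ValuationSubring.valuation_lt_one_iff]
    simp
  have hD : 2 * m ^ 2 + 2 * m - m = 2 * m ^ 2 + m := by omega
  have hroot : ((freyPsi P m).map (Int.castRingHom Qb)).eval (xc T) = 0 := by
    rw [map_freyPsi_Qb]
    exact (torsion_iff_root hT0 m).mp (by rw [← hm]; exact hTp)
  refine val_root_of_two_slopes A.valuation P.pp hpv hpK (freyPsi P m) (2 * m ^ 2 + 2 * m) m
    (by omega) (by nlinarith) hdeg (by rw [freyPsi, hlead, hm]) ?_ ?_ (xc T) hker hroot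
  · -- the coefficient of degree `2m² + m` is a unit
    rw [hD]
    have hne : ((freyPsi P m).map φ).coeff (2 * m ^ 2 + m) ≠ 0 := by
      rw [← hres]
      apply Polynomial.leadingCoeff_ne_zero.mpr
      intro h0
      rw [h0, Polynomial.natDegree_zero] at hres
      nlinarith
    rw [Ne, hcoeff, not_lt] at hne
    exact le_antisymm (Fermat.Agent.Ribet.H187.val_intCast_le_one A.valuation _) hne
  · intro k hk
    rw [← hcoeff]
    apply Polynomial.coeff_eq_zero_of_natDegree_lt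
    rw [hres]
    omega

/-- **`E[p] ∩ E₁` is cyclic of order `p`.** -/
theorem frey_exists_generator (hpabc : (P.p : ℤ) ∣ P.a * P.b * P.c) (hA : A.LiesOverPrime P.p) :
    ∃ t : (P.freyCurve⁄Qb).Point, t ≠ 0 ∧ P.p • t = 0 ∧ InKer (P.freyCurve⁄Qb) A.valuation t ∧
      ∀ T : (P.freyCurve⁄Qb).Point, P.p • T = 0 → InKer (P.freyCurve⁄Qb) A.valuation T →
        ∃ n : ℕ, T = n • t := by
  classical
  have hcard := frey_ncard_inKer P hpabc hA
  set S : Set (P.freyCurve⁄Qb).Point :=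
    {T | P.p • T = 0 ∧ InKer (P.freyCurve⁄Qb) A.valuation T} with hS
  have hp1 : 1 < P.p := P.pp.one_lt
  have hfin : S.Finite := Set.finite_of_ncard_pos (by rw [hcard]; exact P.pp.pos)
  obtain ⟨t, htS, ht0⟩ := Set.exists_ne_of_one_lt_ncard (by rw [hcard]; exact hp1)
    (0 : (P.freyCurve⁄Qb).Point)
  have hW := Fermat.Agent.S05.Assemble.frey_integral (P := P) hA P.pp
    (by have := P.hp5; omega)
  refine ⟨t, ht0, htS.1, htS.2, ?_⟩
  haveI : Fact P.p.Prime := ⟨P.pp⟩
  have hord : addOrderOf t = P.p := addOrderOf_eq_prime htS.1 ht0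
  set I : Set (P.freyCurve⁄Qb).Point := (fun n : ℕ => n • t) '' (Set.Iio P.p) with hI
  have hIsub : I ⊆ S := by
    rintro _ ⟨n, -, rfl⟩
    refine ⟨?_, Fermat.Agent.S13.H64.inKer_nsmul hW htS.2 n⟩
    rw [smul_comm, htS.1]
    exact nsmul_zero n
  have hinj : Set.InjOn (fun n : ℕ => n • t) (Set.Iio P.p) := by
    have := nsmul_injOn_Iio_addOrderOf (x := t)
    rwa [hord] at this
  have hIcard : I.ncard = P.p := by
    rw [hI, Set.InjOn.ncard_image hinj]
    simp [Set.ncard_eq_toFinset_card']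
  have hIS : I = S := Set.eq_of_subset_of_ncard_le hIsub (by rw [hIcard, hcard]) hfin
  intro T hT hTker
  have hTS : T ∈ S := ⟨hT, hTker⟩
  rw [← hIS] at hTS
  obtain ⟨n, -, rfl⟩ := hTS
  exact ⟨n, rfl⟩

end Fermat.Agent.Ribet.H420
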