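import Fermat.Agent.S05.XOnlyFormulas
import Fermat.Agent.Ribet.H420.FreyEta
import Fermat.Agent.Ribet.H420.FreyKer

/-!
# RIBET / ELOC-Frey (helper420): the key valuation

`x = (x₁, y₁)` an integral `p`-torsion point of the Frey curve (`p ∣ abc`, place `A` over `p`),
`t = (x₂, y₂)` a `p`-torsion point in the kernel of reduction.  From the `x`-only formula

  `(x₁ - x₂)² (x(x + t) - x(x - t)) = - η(x) η(t)`

and `v η(x) = v c` (`c ∈ ℤ`), `v η(t)² = v x₂ ³`, `v p * v x₂ ^ ((p-1)/2) = 1` we get that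
`v (x(x + t) - x(x - t))` is tame (`frey_inTame_diff`): in fact it is `v c * v (ζ - 1)`.
-/

set_option autoImplicit false
set_option linter.unusedSectionVars false
set_option linter.unusedVariables false
set_option linter.style.haveILetI false

namespace Fermat.Agent.Ribet.H420

open WeierstrassCurve WeierstrassCurve.Affine WeierstrassCurve.Affine.Point
open Fermat.Agent.S05 Fermat.Agent.S05.SameRed Fermat.Agent.S05.Assemble
open Fermat.Agent.S51.Five (xc xc_some)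

section abstract

variable {K : Type*} [Field K] [DecidableEq K]
  {Γ₀ : Type*} [LinearOrderedCommGroupWithZero Γ₀]
variable {W : Affine K} {v : Valuation K Γ₀}

/-- `v η² = v x ³` at a point of the kernel of reduction. -/
lemma val_eta_sq_of_inKer (hW : IntegralCoeffs W v) (h2 : v (2 : K) = 1) {x y : K}
    (h : W.Equation x y) (hx : 1 < v x) :
    v (2 * y + W.a₁ * x + W.a₃) ^ 2 = v x ^ 3 := by
  have hI := C1b.isIntegralAt_of_integralCoeffs hW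
  have h4 : v (4 : K) = 1 := val_four (v := v) h2
  have hx0 : 0 < v x := lt_trans zero_lt_one hx
  have e := XOnly.eta_sq W h
  simp only [XOnly.eta, XOnly.twoF] at e
  rw [← map_pow, e]
  have hmain : v (4 * x ^ 3) = v x ^ 3 := by rw [map_mul, h4, one_mul, map_pow]
  have h1 : v (W.b₂ * x ^ 2) < v x ^ 3 := by
    rw [map_mul, map_pow]
    calc v W.b₂ * v x ^ 2 ≤ 1 * v x ^ 2 := mul_le_mul_left (FG.v_b₂ hI) _
      _ = v x ^ 2 := one_mul _
      _ < v x ^ 3 := pow_lt_pow_right₀ hx (by norm_num)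
  have h3 : v (2 * W.b₄ * x) < v x ^ 3 := by
    rw [map_mul, map_mul, h2, one_mul]
    calc v W.b₄ * v x ≤ 1 * v x := mul_le_mul_left (FG.v_b₄ hI) _
      _ = v x ^ 1 := by rw [one_mul, pow_one]
      _ < v x ^ 3 := pow_lt_pow_right₀ hx (by norm_num)
  have h6 : v W.b₆ < v x ^ 3 :=
    lt_of_le_of_lt (FG.v_b₆ hI) (one_lt_pow₀ hx (by norm_num))
  rw [add_assoc, add_assoc, v.map_add_eq_of_lt_left, hmain]
  rw [hmain]
  exact lt_of_le_of_lt (v.map_add _ _) (max_lt h1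
    (lt_of_le_of_lt (v.map_add _ _) (max_lt h3 h6)))

/-- The `x`-only difference formula in valuation form. -/
lemma val_xc_add_sub (h2 : v (2 : K) = 1) {x₁ y₁ x₂ y₂ : K}
    (h₁ : W.Nonsingular x₁ y₁) (h₂ : W.Nonsingular x₂ y₂) (hx₁ : v x₁ ≤ 1) (hx₂ : 1 < v x₂) :
    v x₂ ^ 2 * v (xc (Point.some x₁ y₁ h₁ + Point.some x₂ y₂ h₂)
        - xc (Point.some x₁ y₁ h₁ - Point.some x₂ y₂ h₂))
      = v (2 * y₁ + W.a₁ * x₁ + W.a₃) * v (2 * y₂ + W.a₁ * x₂ + W.a₃) := by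
  have hne : x₁ ≠ x₂ := by
    rintro rfl
    exact absurd hx₂ (not_lt.mpr hx₁)
  have h4 : v (4 : K) = 1 := val_four (v := v) h2
  obtain ⟨xp, yp, xm, ym, hp', hm', hadd, hsub, e1, e2⟩ := XOnly.add_sub_of_X_ne W h₁ h₂ hne
  rw [hadd, hsub, xc_some, xc_some]
  have key : 4 * ((x₁ - x₂) ^ 2 * (xp - xm)) =
      -(4 * (XOnly.eta W x₁ y₁ * XOnly.eta W x₂ y₂)) := by
    linear_combination e1 - e2
  have h40 : (4 : K) ≠ 0 := by
    intro h0; rw [h0, _root_.map_zero] at h4; exact zero_ne_one h4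
  have key' : (x₁ - x₂) ^ 2 * (xp - xm) = -(XOnly.eta W x₁ y₁ * XOnly.eta W x₂ y₂) := by
    apply mul_left_cancel₀ h40
    rw [key]; ring
  have hv := congrArg v key'
  rw [Valuation.map_neg, map_mul, map_mul, map_pow] at hv
  have hsubv : v (x₁ - x₂) = v x₂ := by
    rw [Valuation.map_sub_eq_of_lt_right]
    exact lt_of_le_of_lt hx₁ hx₂
  rw [hsubv] at hv
  exact hv

end abstract

/-- **Key valuation.** -/
theorem frey_inTame_diff (P : FreyPackage) (hpabc : (P.p : ℤ) ∣ P.a * P.b * P.c)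
    (A : ValuationSubring Qb) (hA : A.LiesOverPrime P.p)
    {x₁ y₁ : Qb} (h₁ : (P.freyCurve⁄Qb).Nonsingular x₁ y₁)
    (hP₁ : P.p • Point.some x₁ y₁ h₁ = 0) (hx₁ : A.valuation x₁ ≤ 1)
    {x₂ y₂ : Qb} (h₂ : (P.freyCurve⁄Qb).Nonsingular x₂ y₂)
    (hP₂ : P.p • Point.some x₂ y₂ h₂ = 0) (hx₂ : 1 < A.valuation x₂) :
    InTame A P.p (A.valuation (xc (Point.some x₁ y₁ h₁ + Point.some x₂ y₂ h₂)
        - xc (Point.some x₁ y₁ h₁ - Point.some x₂ y₂ h₂))) := by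
  haveI : Fact P.p.Prime := ⟨P.pp⟩
  have hp2 : P.p ≠ 2 := by have := P.hp5; omega
  have hW := frey_integral (P := P) hA P.pp hp2
  have h2 := val_two_eq_one hA P.pp hp2
  obtain ⟨m, hm⟩ : ∃ m, P.p = 2 * m + 1 := by
    obtain ⟨m, hm⟩ := P.hp_odd
    exact ⟨m, hm⟩
  have hp0 : A.valuation (P.p : Qb) ≠ 0 := by
    rw [Ne, map_eq_zero]; exact_mod_cast P.pp.ne_zero
  set ρ := A.valuation x₂ with hρ
  have hρ0 : ρ ≠ 0 := (lt_trans zero_lt_one hx₂).ne'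
  have hNP : A.valuation (P.p : Qb) * ρ ^ m = 1 :=
    frey_val_xc_of_inKer P hpabc hA m hm (Point.some x₂ y₂ h₂) (Point.some_ne_zero _) hP₂
      (by rw [xc_some]; exact hx₂)
  have hη₂ := val_eta_sq_of_inKer hW h2 h₂.1 hx₂
  have hη₁ := frey_inTame_val_eta P hpabc A hA h₁ hP₁ hx₁
  have hmain := val_xc_add_sub (W := P.freyCurve⁄Qb) h2 h₁ h₂ hx₁ hx₂
  set D := A.valuation (xc (Point.some x₁ y₁ h₁ + Point.some x₂ y₂ h₂)
        - xc (Point.some x₁ y₁ h₁ - Point.some x₂ y₂ h₂)) with hD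
  set e₂ := A.valuation (2 * y₂ + (P.freyCurve⁄Qb).a₁ * x₂ + (P.freyCurve⁄Qb).a₃) with he₂
  -- `ε = v η(t) / ρ²` has `ε ^ (p - 1) = v p`
  have hε : InTame A P.p (e₂ * (ρ ^ 2)⁻¹) := by
    refine ⟨1, ?_⟩
    have hp1 : P.p - 1 = 2 * m := by omega
    have hinv : (ρ ^ m)⁻¹ = A.valuation (P.p : Qb) := inv_eq_of_mul_eq_one_left hNP
    have e1 : (e₂ * (ρ ^ 2)⁻¹) ^ 2 = ρ⁻¹ := by
      calc (e₂ * (ρ ^ 2)⁻¹) ^ 2 = e₂ ^ 2 * ((ρ ^ 2) ^ 2)⁻¹ := by rw [mul_pow, inv_pow]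
        _ = ρ ^ 3 * (ρ ^ 4)⁻¹ := by rw [hη₂, ← pow_mul]
        _ = ρ⁻¹ := by
            apply eq_inv_of_mul_eq_one_left
            rw [mul_right_comm, ← pow_succ, mul_inv_cancel₀ (pow_ne_zero _ hρ0)]
    rw [hp1, pow_mul, e1, inv_pow, hinv, zpow_one]
  have hDeq : D = A.valuation (2 * y₁ + (P.freyCurve⁄Qb).a₁ * x₁ + (P.freyCurve⁄Qb).a₃)
      * (e₂ * (ρ ^ 2)⁻¹) := by
    rw [← mul_assoc, ← hmain, mul_comm (ρ ^ 2), mul_assoc, mul_inv_cancel₀ (pow_ne_zero _ hρ0),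
      mul_one]
  rw [hDeq]
  exact hη₁.mul hε hp0

end Fermat.Agent.Ribet.H420
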