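import Fermat.Agent.A2.IF.H429.Inertia
import Fermat.Agent.S55.H414.CycloPow
import Fermat.Agent.Ribet.H420.Resolvent

/-!
# RIBET / ELOC-Frey (helper420): the value group of the tame field `ℚ̄^I(ζ_p)`

`A` a valuation subring of `ℚ̄` over `p`, `I` its inertia group.  If `a ≠ 0` is fixed by every
`s ∈ I` fixing the `p`-th roots of unity, then `v a ^ (p - 1)` is an integral power of `v p`
(`inTame_of_fixed`): the norm of `a` down to the inertia field is a product of at most `p - 1`
conjugates of `a` under `I`, all of the same valuation, and the inertia field is unramified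
(`Fermat.Agent.A2.IF.H429.exists_zpow_of_mem_inertiaField`).
-/

set_option autoImplicit false
set_option linter.unusedSectionVars false
set_option linter.style.haveILetI false

namespace Fermat.Agent.Ribet.H420

open Fermat.Agent.A2.IF.H429 Fermat.Agent.S55.H414

local notation "Qb" => AlgebraicClosure ℚ

variable (A : ValuationSubring Qb) {p : ℕ} [hp : Fact p.Prime]

/-- an element with trivial cyclotomic character fixes all `p`-th roots of unity -/
lemma apply_root_of_cycloPow_eq_one (s : Qb ≃ₐ[ℚ] Qb)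
    (hs : haveI : NeZero p := ⟨hp.out.ne_zero⟩; cycloPow p s = 1)
    (ζ : Qb) (hζ : ζ ^ p = 1) : s ζ = ζ := by
  haveI : NeZero p := ⟨hp.out.ne_zero⟩
  obtain ⟨i, -, rfl⟩ := (zetaBar_spec p).eq_pow_of_pow_eq_one hζ
  have h1 := cycloPow_spec p s
  rw [hs, Units.val_one, ZMod.val_one, pow_one] at h1
  rw [map_pow, h1]

theorem inTame_of_fixed (hA : A.LiesOverPrime p) (a : Qb) (ha0 : a ≠ 0)
    (hfix : ∀ s ∈ A.inertiaSubgroupIn ℚ, (∀ ζ : Qb, ζ ^ p = 1 → s ζ = ζ) → s a = a) :
    InTame A p (A.valuation a) := by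
  classical
  haveI : NeZero p := ⟨hp.out.ne_zero⟩
  set I := A.inertiaSubgroupIn ℚ with hI
  set χ := cycloPow p with hχ
  set C : Subgroup (ZMod p)ˣ := I.map χ with hC
  -- a section
  set g : (ZMod p)ˣ → Qb := fun u =>
    if h : ∃ s ∈ I, χ s = u then (Classical.choose h) a else 1 with hg
  have hgs : ∀ s ∈ I, g (χ s) = s a := by
    intro s hs
    have h : ∃ s' ∈ I, χ s' = χ s := ⟨s, hs, rfl⟩
    have hs' := Classical.choose_spec h
    simp only [hg, dif_pos h]
    set s' := Classical.choose h with hs'def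
    have hmem : s'⁻¹ * s ∈ I := I.mul_mem (I.inv_mem hs'.1) hs
    have hχ1 : χ (s'⁻¹ * s) = 1 := by
      rw [map_mul, map_inv, hs'.2, inv_mul_cancel]
    have := hfix _ hmem (fun ζ hζ => apply_root_of_cycloPow_eq_one _ hχ1 ζ hζ)
    rw [AlgEquiv.mul_apply] at this
    have h2 := congrArg s' this
    rw [← AlgEquiv.mul_apply, mul_inv_cancel, AlgEquiv.one_apply] at h2
    exact h2.symm
  set F : Finset (ZMod p)ˣ := Finset.univ.filter (fun u => u ∈ C) with hF
  set N : Qb := ∏ u ∈ F, g u with hN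
  have hmemF : ∀ u, u ∈ F ↔ ∃ s ∈ I, χ s = u := by
    intro u
    rw [hF, Finset.mem_filter, hC, Subgroup.mem_map]
    simp
  -- `N` is fixed by inertia
  have hNfix : ∀ s ∈ I, s N = N := by
    intro s hs
    rw [hN, map_prod]
    refine Finset.prod_bij (fun u _ => χ s * u) ?_ ?_ ?_ ?_
    · intro u hu
      obtain ⟨t, ht, rfl⟩ := (hmemF u).mp hu
      exact (hmemF _).mpr ⟨s * t, I.mul_mem hs ht, map_mul _ _ _⟩
    · intro u _ u' _ h
      exact mul_left_cancel h
    · intro u hu
      obtain ⟨t, ht, rfl⟩ := (hmemF u).mp hu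
      refine ⟨χ (s⁻¹ * t), (hmemF _).mpr ⟨s⁻¹ * t, I.mul_mem (I.inv_mem hs) ht, rfl⟩, ?_⟩
      rw [← map_mul, mul_inv_cancel_left]
    · intro u hu
      obtain ⟨t, ht, rfl⟩ := (hmemF u).mp hu
      rw [hgs t ht, ← map_mul, hgs (s * t) (I.mul_mem hs ht), AlgEquiv.mul_apply]
  -- valuations
  have hval : ∀ u ∈ F, A.valuation (g u) = A.valuation a := by
    intro u hu
    obtain ⟨t, ht, rfl⟩ := (hmemF u).mp hu
    rw [hgs t ht]
    exact valuation_map_eq A (decomp_of_inertia A ht) a
  have hvN : A.valuation N = A.valuation a ^ F.card := by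
    rw [hN, map_prod, Finset.prod_congr rfl hval, Finset.prod_const]
  have hva0 : A.valuation a ≠ 0 := by rw [Ne, map_eq_zero]; exact ha0
  have hN0 : N ≠ 0 := by
    intro h
    rw [h, map_zero] at hvN
    exact pow_ne_zero _ hva0 hvN.symm
  obtain ⟨k, hk⟩ := exists_zpow_of_mem_inertiaField A p hp.out hA N
    ((mem_inertiaField_iff A).mpr hNfix) hN0
  have hp0 : A.valuation ((p : ℕ) : Qb) ≠ 0 := by
    rw [Ne, map_eq_zero]; exact_mod_cast hp.out.ne_zero
  rw [map_div₀, map_zpow₀] at hk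
  have hk' : A.valuation N = A.valuation ((p : ℕ) : Qb) ^ k :=
    (div_eq_one_iff_eq (zpow_ne_zero k hp0)).mp hk
  -- Lagrange
  have hcard : F.card ∣ p - 1 := by
    have h1 : Nat.card C ∣ Nat.card (ZMod p)ˣ := Subgroup.card_subgroup_dvd_card C
    have h2 : Nat.card (ZMod p)ˣ = p - 1 := by
      rw [Nat.card_eq_fintype_card, ZMod.card_units]
    have h3 : Nat.card C = F.card := by
      rw [Nat.card_eq_fintype_card, hF, Fintype.card_subtype]
    rwa [h2, h3] at h1
  obtain ⟨d, hd⟩ := hcard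
  refine ⟨k * d, ?_⟩
  rw [hd, pow_mul, ← hvN, hk', ← zpow_natCast, ← zpow_mul]

end Fermat.Agent.Ribet.H420
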