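import Fermat.Agent.Ribet.H944.WallSpec
import Fermat.Agent.Ribet.H403.DetFrey
import Fermat.Agent.Lib.Red.H382.Ker
import Fermat.Agent.Ribet.H420.TameVal
import Fermat.Agent.Ribet.H420.FreyDiff
import Fermat.Agent.Ribet.H420.DetTri

/-!
# RIBET / WALL-p leaf ELOC-Frey (helper420): `E[p]` of the Frey curve at `p ∣ abc`

`elocOrdFrey : Fermat.Agent.Ribet.H944.Wall.ELOCOrdFreyStatement`.

For a Frey package `P` with `p ∣ abc` and a place `A` of `ℚ̄` over `p` (multiplicative reduction,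
`p ∣ v_p(Δ)`), with `I` the inertia group of `A`:

1. the line `⟨t⟩ = E[p] ∩ E₁` (kernel of reduction) has order `p`, and `I` acts on it by the
   cyclotomic character (`det = χ`, landed `H403`, and trivial action on the quotient);
2. `σ x - x ∈ ⟨t⟩` for `σ ∈ I` (landed `S13.H64.frey_inKer_smul_sub`);
3. `E[p]` is peu ramifiée: the conjugates `X i = x(x + i t)` of the `x`-coordinate of `x ∉ ⟨t⟩`
   satisfy `v (X 1 - X (-1)) = v c * v (ζ - 1)` with `c ∈ ℤ` (`frey_inTame_diff`), so a Lagrange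
   resolvent of the family is a unit times an element of the tame field `ℚ̄^I(ζ_p)`
   (`exists_unit_of_family`); a `σ` in the peu ramifiée subgroup fixes this unit, hence `x`.
-/

set_option autoImplicit false
set_option linter.unusedSectionVars false
set_option linter.unusedVariables false
set_option linter.style.haveILetI false

namespace Fermat.Agent.Ribet.H420

open WeierstrassCurve WeierstrassCurve.Affine WeierstrassCurve.Affine.Point
open Fermat.Agent.S05.SameRed (InKer IntegralCoeffs)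
open Fermat.Agent.S51.Five (xc xc_some xc_galois_smul)
open Fermat.Agent.Ribet.H944.Wall
open Fermat.Agent.Ribet.Spec

local notation "Qb" => AlgebraicClosure ℚ

variable (P : FreyPackage) (A : ValuationSubring Qb)

/-! ### Points -/

lemma frey_inKer_smul {σ : GQ} (hσ : σ ∈ A.inertiaSubgroupIn ℚ)
    {X : (P.freyCurve⁄Qb).Point} (hX : InKer (P.freyCurve⁄Qb) A.valuation X) :
    InKer (P.freyCurve⁄Qb) A.valuation (σ • X) := by
  rcases X with _ | ⟨x, y, h⟩
  · exact hX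
  · show 1 < A.valuation (σ x)
    rw [Fermat.Agent.A2.IF.H429.valuation_map_eq A
      (Fermat.Agent.A2.IF.H429.decomp_of_inertia A hσ)]
    exact hX

/-- inertia moves `p`-torsion points inside the kernel of reduction -/
theorem frey_inKer_smul_sub_all (hA : A.LiesOverPrime P.p) {σ : GQ}
    (hσ : σ ∈ A.inertiaSubgroupIn ℚ) (X : (P.freyCurve⁄Qb).Point) (hX : P.p • X = 0) :
    InKer (P.freyCurve⁄Qb) A.valuation (σ • X - X) := by
  have hp2 : P.p ≠ 2 := by have := P.hp5; omega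
  have hW := Fermat.Agent.S05.Assemble.frey_integral (P := P) hA P.pp hp2
  by_cases hker : InKer (P.freyCurve⁄Qb) A.valuation X
  · exact Fermat.Agent.Lib.Red.H382.inKer_sub hW (frey_inKer_smul P A hσ hker) hker
  · rcases X with _ | ⟨x, y, h⟩
    · exact absurd trivial hker
    · have hx : A.valuation x ≤ 1 := not_lt.mp hker
      exact Fermat.Agent.S13.H64.frey_inKer_smul_sub P P.pp hp2 A hA σ hσ h hX hx

/-! ### The torsion module -/

/-- `E[p]` of the Frey curve -/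
abbrev FTors : Type := ETorsion P.freyCurve P.p

variable {P}

lemma ftors_nsmul_eq_zero (x : FTors P) : P.p • (x : (P.freyCurve⁄Qb).Point) = 0 :=
  Fermat.Agent.S59.H127.mem_torsionBy_natCast_iff.mp x.2

lemma ftors_cast_smul (c : ZMod P.p) (x : FTors P) : c • x = c.val • x := by
  haveI : NeZero P.p := ⟨P.pp.ne_zero⟩
  conv_lhs => rw [← ZMod.natCast_zmod_val c]
  exact Nat.cast_smul_eq_nsmul (ZMod P.p) c.val x

lemma ftors_natCast_smul (n : ℕ) (x : FTors P) : (n : ZMod P.p) • x = n • x :=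
  Nat.cast_smul_eq_nsmul (ZMod P.p) n x

lemma ftors_coe_nsmul (n : ℕ) (x : FTors P) :
    ((n • x : FTors P) : (P.freyCurve⁄Qb).Point) = n • (x : (P.freyCurve⁄Qb).Point) :=
  Submodule.coe_smul_of_tower n x

lemma ftors_coe_smul (σ : GQ) (x : FTors P) :
    ((σ • x : FTors P) : (P.freyCurve⁄Qb).Point) = σ • (x : (P.freyCurve⁄Qb).Point) := rfl

lemma ftors_smul_nsmul (σ : GQ) (n : ℕ) (x : FTors P) : σ • (n • x) = n • (σ • x) :=
  smul_comm σ n x

lemma ftors_smul_zmod (σ : GQ) (c : ZMod P.p) (x : FTors P) : σ • (c • x) = c • (σ • x) := by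
  rw [ftors_cast_smul, ftors_cast_smul, ftors_smul_nsmul]

/-- the structure of `E[p]` at `A`: the generator `t` of `E[p] ∩ E₁` -/
theorem frey_exists_line (hpabc : (P.p : ℤ) ∣ P.a * P.b * P.c) (hA : A.LiesOverPrime P.p) :
    ∃ t : FTors P, t ≠ 0 ∧ InKer (P.freyCurve⁄Qb) A.valuation (t : (P.freyCurve⁄Qb).Point) ∧
      (∀ x : FTors P, InKer (P.freyCurve⁄Qb) A.valuation (x : (P.freyCurve⁄Qb).Point) →
        ∃ n : ℕ, x = n • t) ∧
      ∀ x : FTors P, ∀ σ ∈ A.inertiaSubgroupIn ℚ, ∃ n : ℕ, σ • x = x + n • t := by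
  obtain ⟨t₀, ht0, htp, htker, hgen⟩ := frey_exists_generator P hpabc hA
  set t : FTors P := ⟨t₀, Fermat.Agent.S59.H127.mem_torsionBy_natCast_iff.mpr htp⟩ with ht
  have hline : ∀ x : FTors P, InKer (P.freyCurve⁄Qb) A.valuation (x : (P.freyCurve⁄Qb).Point) →
      ∃ n : ℕ, x = n • t := by
    intro x hx
    obtain ⟨n, hn⟩ := hgen x (ftors_nsmul_eq_zero x) hx
    refine ⟨n, Subtype.ext ?_⟩
    rw [ftors_coe_nsmul, hn]
  refine ⟨t, fun h => ht0 (congrArg Subtype.val h), htker, hline, ?_⟩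
  intro x σ hσ
  have h1 := frey_inKer_smul_sub_all P A hA hσ (x : (P.freyCurve⁄Qb).Point)
    (ftors_nsmul_eq_zero x)
  obtain ⟨n, hn⟩ := hline (σ • x - x) h1
  exact ⟨n, by rw [← hn]; abel⟩

variable (P)

/-- some point of `E[p]` is not in the kernel of reduction -/
theorem frey_exists_not_inKer (hpabc : (P.p : ℤ) ∣ P.a * P.b * P.c)
    (hA : A.LiesOverPrime P.p) :
    ∃ x : FTors P, ¬ InKer (P.freyCurve⁄Qb) A.valuation (x : (P.freyCurve⁄Qb).Point) := by
  by_contra hcon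
  push Not at hcon
  have hcard := frey_ncard_inKer P hpabc hA
  have hΔ : P.freyCurve.Δ ≠ 0 := Fermat.Agent.S13.H891.freyCurve_Δ_ne_zero P
  have hT : Nat.card (FTors P) = P.p ^ 2 := Fermat.Agent.Ribet.H403.card_tors P.freyCurve hΔ P.p
  set S : Set (P.freyCurve⁄Qb).Point :=
    {T | P.p • T = 0 ∧ InKer (P.freyCurve⁄Qb) A.valuation T} with hS
  have hfin : S.Finite := Set.finite_of_ncard_pos (by rw [hcard]; exact P.pp.pos)
  have hsub : Set.range (Subtype.val : FTors P → (P.freyCurve⁄Qb).Point) ⊆ S := by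
    rintro _ ⟨x, rfl⟩
    exact ⟨ftors_nsmul_eq_zero x, hcon x⟩
  have h1 := Set.ncard_le_ncard hsub hfin
  rw [hcard, ← Set.image_univ, Set.ncard_image_of_injective _ Subtype.val_injective,
    Set.ncard_univ, hT] at h1
  have := P.pp.one_lt
  nlinarith

/-- **(1)** inertia acts on the line by the cyclotomic character -/
theorem frey_line_cyclo (hpabc : (P.p : ℤ) ∣ P.a * P.b * P.c) (hA : A.LiesOverPrime P.p)
    (t : FTors P) (ht0 : t ≠ 0)
    (htker : InKer (P.freyCurve⁄Qb) A.valuation (t : (P.freyCurve⁄Qb).Point))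
    (hline : ∀ x : FTors P, InKer (P.freyCurve⁄Qb) A.valuation (x : (P.freyCurve⁄Qb).Point) →
        ∃ n : ℕ, x = n • t)
    (hmove : ∀ x : FTors P, ∀ σ ∈ A.inertiaSubgroupIn ℚ, ∃ n : ℕ, σ • x = x + n • t)
    (σ : GQ) (hσ : σ ∈ A.inertiaSubgroupIn ℚ) (c : ℕ) (hc : CycloAt P.p σ c) :
    σ • t = c • t := by
  haveI : Fact P.p.Prime := ⟨P.pp⟩
  have hp2 : P.p ≠ 2 := by have := P.hp5; omega
  have hW := Fermat.Agent.S05.Assemble.frey_integral (P := P) hA P.pp hp2
  obtain ⟨a, ha⟩ := hline (σ • t) (frey_inKer_smul P A hσ htker)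
  obtain ⟨x, hx⟩ := frey_exists_not_inKer P A hpabc hA
  obtain ⟨n, hn⟩ := hmove x σ hσ
  have hΔ : P.freyCurve.Δ ≠ 0 := Fermat.Agent.S13.H891.freyCurve_Δ_ne_zero P
  have hdim := Fermat.Agent.Ribet.H403.finrank_tors P.freyCurve hΔ P.p
  have hdet := Fermat.Agent.Ribet.H403.frey_det_eq_of_apply_root P σ c hc
  have hxt : ∀ b : ZMod P.p, b • t ≠ x := by
    intro b hb
    apply hx
    rw [← hb, ftors_cast_smul, ftors_coe_nsmul]
    exact Fermat.Agent.S13.H64.inKer_nsmul hW htker _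
  have hdet' := det_eq_of_triangular hdim
    (galoisRepModuleEnd (S := ℚ) (K := Qb) P.freyCurve P.p σ) t x ht0 hxt
    (a : ZMod P.p) (n : ZMod P.p)
    (by rw [galoisRepModuleEnd_apply, ha, ftors_natCast_smul])
    (by rw [galoisRepModuleEnd_apply, hn, ftors_natCast_smul])
  rw [hdet] at hdet'
  rw [ha, ← ftors_natCast_smul a, ← ftors_natCast_smul c, hdet']

/-! ### Peu ramifiée -/

lemma cycloAt_one_of_peuFixes {p : ℕ} (hp : p.Prime) {σ : GQ} (h : PeuFixes A p σ) :
    CycloAt p σ 1 := by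
  intro ζ hζ
  rw [pow_one]
  have hv : A.valuation ζ = 1 := by
    have h1 : A.valuation ζ ^ p = 1 := by rw [← map_pow, hζ, map_one]
    exact (pow_eq_one_iff_of_nonneg zero_le hp.ne_zero).mp h1
  apply h.2 ζ
  · exact (A.valuation_le_one_iff ζ).mp hv.le
  · apply (A.valuation_le_one_iff _).mp
    rw [map_inv₀, hv, inv_one]
  · intro τ _ _
    rw [hζ, map_one]

/-- **(3)** `E[p]` is peu ramifiée -/
theorem frey_peu (hpabc : (P.p : ℤ) ∣ P.a * P.b * P.c) (hA : A.LiesOverPrime P.p)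
    (t : FTors P) (ht0 : t ≠ 0)
    (htker : InKer (P.freyCurve⁄Qb) A.valuation (t : (P.freyCurve⁄Qb).Point))
    (hline : ∀ x : FTors P, InKer (P.freyCurve⁄Qb) A.valuation (x : (P.freyCurve⁄Qb).Point) →
        ∃ n : ℕ, x = n • t)
    (hmove : ∀ x : FTors P, ∀ σ ∈ A.inertiaSubgroupIn ℚ, ∃ n : ℕ, σ • x = x + n • t)
    (hcyc : ∀ σ ∈ A.inertiaSubgroupIn ℚ, ∀ c : ℕ, CycloAt P.p σ c → σ • t = c • t)
    (x : FTors P) (σ : GQ) (hσ : PeuFixes A P.p σ) : σ • x = x := by
  classical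
  haveI : Fact P.p.Prime := ⟨P.pp⟩
  haveI : NeZero P.p := ⟨P.pp.ne_zero⟩
  have hp2 : P.p ≠ 2 := by have := P.hp5; omega
  have hσ1 : CycloAt P.p σ 1 := cycloAt_one_of_peuFixes A P.pp hσ
  have hfixt : ∀ s ∈ A.inertiaSubgroupIn ℚ, CycloAt P.p s 1 → s • t = t := by
    intro s hs hs1
    rw [hcyc s hs 1 hs1, one_smul]
  by_cases hker : InKer (P.freyCurve⁄Qb) A.valuation (x : (P.freyCurve⁄Qb).Point)
  · obtain ⟨n, rfl⟩ := hline x hker
    rw [ftors_smul_nsmul, hfixt σ hσ.1 hσ1]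
  -- the family
  set 𝓗 : Set GQ := {s | s ∈ A.inertiaSubgroupIn ℚ ∧ CycloAt P.p s 1} with h𝓗
  set n : GQ → ZMod P.p := fun s =>
    if h : s ∈ A.inertiaSubgroupIn ℚ then ((Classical.choose (hmove x s h) : ℕ) : ZMod P.p)
    else 0 with hn
  have hnspec : ∀ s ∈ A.inertiaSubgroupIn ℚ, s • x = x + n s • t := by
    intro s hs
    have := Classical.choose_spec (hmove x s hs)
    simp only [hn, dif_pos hs]
    rw [ftors_natCast_smul]
    exact this
  set X : ZMod P.p → Qb := fun i => xc ((x + i • t : FTors P) : (P.freyCurve⁄Qb).Point) with hX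
  have hζ := Fermat.Agent.S55.H414.zetaBar_spec P.p
  have hXact : ∀ s ∈ 𝓗, ∀ i, (s : Qb →+* Qb) (X i) = X (i + n s) := by
    intro s hs i
    have e1 : s • (x + i • t) = x + (i + n s) • t := by
      rw [smul_add, ftors_smul_zmod, hfixt s hs.1 hs.2, hnspec s hs.1, add_smul]
      abel
    simp only [hX]
    rw [← e1, ftors_coe_smul, xc_galois_smul]
    rfl
  have hVG : ∀ a : Qb, a ≠ 0 → (∀ s ∈ 𝓗, (s : Qb →+* Qb) a = a) →
      InTame A P.p (A.valuation a) := by
    intro a ha0 hfix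
    apply inTame_of_fixed A hA a ha0
    intro s hs hsζ
    exact hfix s ⟨hs, fun ζ hζ' => by rw [pow_one]; exact hsζ ζ hζ'⟩
  have h1ne : (1 : ZMod P.p) ≠ -1 := by
    intro h
    have h2 : (2 : ZMod P.p) = 0 := by
      have : (1 : ZMod P.p) + 1 = 0 := by
        nth_rewrite 2 [h]
        ring
      rw [← this]; norm_num
    have h3 : ((2 : ℕ) : ZMod P.p) = 0 := by exact_mod_cast h2
    rw [ZMod.natCast_eq_zero_iff] at h3
    exact hp2 ((Nat.prime_dvd_prime_iff_eq P.pp Nat.prime_two).mp h3)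
  have hdiff : InTame A P.p (A.valuation (X 1 - X (-1))) := by
    simp only [hX]
    rw [one_smul, neg_one_smul, ← sub_eq_add_neg]
    have hx0 := ftors_nsmul_eq_zero x
    have ht0' := ftors_nsmul_eq_zero t
    have e1 : ((x + t : FTors P) : (P.freyCurve⁄Qb).Point)
        = (x : (P.freyCurve⁄Qb).Point) + (t : (P.freyCurve⁄Qb).Point) := rfl
    have e2 : ((x - t : FTors P) : (P.freyCurve⁄Qb).Point)
        = (x : (P.freyCurve⁄Qb).Point) - (t : (P.freyCurve⁄Qb).Point) := rfl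
    rw [e1, e2]
    have htne : (t : (P.freyCurve⁄Qb).Point) ≠ 0 := fun h => ht0 (Subtype.ext h)
    generalize (x : (P.freyCurve⁄Qb).Point) = x₀ at hx0 hker ⊢
    generalize (t : (P.freyCurve⁄Qb).Point) = t₀ at ht0' htker htne ⊢
    rcases x₀ with _ | ⟨x₁, y₁, h₁⟩
    · exact absurd trivial hker
    rcases t₀ with _ | ⟨x₂, y₂, h₂⟩
    · exact absurd rfl htne
    exact frey_inTame_diff P hpabc A hA h₁ hx0 (not_lt.mp hker) h₂ ht0' htker
  obtain ⟨y, hy1, hypow, hydet⟩ := exists_unit_of_family (A := A) (p := P.p)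
    (fun s : GQ => (s : Qb →+* Qb)) 𝓗 n hζ
    (fun s hs => by
      have := hs.2 _ hζ.pow_eq_one
      rw [pow_one] at this
      exact this) X hXact hVG h1ne hdiff
  have hσ𝓗 : σ ∈ 𝓗 := ⟨hσ.1, hσ1⟩
  have hσy : σ y = y := by
    apply hσ.2 y
    · exact (A.valuation_le_one_iff y).mp hy1.le
    · apply (A.valuation_le_one_iff _).mp
      rw [map_inv₀, hy1, inv_one]
    · intro τ hτ hτ1
      exact hypow τ ⟨hτ, hτ1⟩
  have hn0 : n σ = 0 := hydet σ hσ𝓗 hσy
  rw [hnspec σ hσ.1, hn0, zero_smul, add_zero]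

/-- **ELOC-Frey.** -/
theorem elocOrdFrey : ELOCOrdFreyStatement := by
  intro P hpabc A hA
  obtain ⟨t, ht0, htker, hline, hmove⟩ := frey_exists_line (P := P) A hpabc hA
  have hcyc := frey_line_cyclo P A hpabc hA t ht0 htker hline hmove
  exact ⟨t, hcyc, hmove,
    fun x σ hσ => frey_peu P A hpabc hA t ht0 htker hline hmove hcyc x σ hσ⟩

end Fermat.Agent.Ribet.H420
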